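import Mathlib
import Fermat.Prelude.Def_ModularCurve_X0
import Fermat.Prelude.Def_ModularCurve_LaurentCoeff
import Fermat.Agent.S24.Rot

/-!
# RED/Desc: formal lemmas on the substitution `q ↦ q ^ c` in Laurent series

* `order_qExpand'` : order of `f(q^c)`.
* `mem_range_qExpand_iff` : the range of `q ↦ q^c` consists of the series supported on `cℤ`.
* `eq_zero_of_sum_qExpand_mul_pow` : if `u` has order `-1` then `1, u, …, u^(c-1)` are linearly
  independent over the field of series in `q^c`.
* `mem_range_qExpand_of_pow_eq` : an `m`-th root of `f(q^c)`, with `m ∣ ord f`, is a series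
  in `q^c`.
-/

set_option autoImplicit false

open ModularCurve Fermat.Agent.S24

namespace Fermat.Agent.RED.Desc

noncomputable section

variable {K : Type*} [Field K]

theorem order_qExpand' (M : ℕ) [NeZero M] (f : LaurentSeries K) :
    (qExpand K M f).order = (M : ℤ) * f.order := by
  by_cases hf : f = 0
  · subst hf; simp
  have hM : (0 : ℤ) < M := by exact_mod_cast Nat.pos_of_ne_zero (NeZero.ne M)
  have h1 : (qExpand K M f).coeff ((M : ℤ) * f.order) ≠ 0 := by
    rw [qExpand_coeff_mul]
    exact fun h => hf (HahnSeries.coeff_order_eq_zero.mp h)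
  apply le_antisymm (HahnSeries.order_le_of_coeff_ne_zero h1)
  have hne : qExpand K M f ≠ 0 := HahnSeries.ne_zero_of_coeff_ne_zero h1
  have h2 : (qExpand K M f).coeff (qExpand K M f).order ≠ 0 :=
    fun h => hne (HahnSeries.coeff_order_eq_zero.mp h)
  by_cases hd : (M : ℤ) ∣ (qExpand K M f).order
  · obtain ⟨k, hk⟩ := hd
    rw [hk, qExpand_coeff_mul] at h2
    rw [hk]
    exact mul_le_mul_of_nonneg_left (HahnSeries.order_le_of_coeff_ne_zero h2) hM.le
  · exact absurd (qExpand_coeff_of_not_dvd M f hd) h2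

/-- The series supported on the multiples of `c` are the series in `q^c`. -/
theorem mem_range_qExpand_iff (c : ℕ) [NeZero c] (f : LaurentSeries K) :
    f ∈ Set.range (qExpand K c) ↔ ∀ n : ℤ, ¬ (c : ℤ) ∣ n → f.coeff n = 0 := by
  constructor
  · rintro ⟨g, rfl⟩ n hn
    exact qExpand_coeff_of_not_dvd c g hn
  · intro h
    have hc : (0 : ℤ) < c := by exact_mod_cast Nat.pos_of_ne_zero (NeZero.ne c)
    have hbdd : BddBelow (Function.support fun k : ℤ => f.coeff ((c : ℤ) * k)) := by
      refine ⟨min f.order 0, ?_⟩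
      intro k hk
      have h1 : f.order ≤ (c : ℤ) * k := HahnSeries.order_le_of_coeff_ne_zero hk
      by_contra hlt
      rw [not_le, lt_min_iff] at hlt
      have h2 : (c : ℤ) * k ≤ 1 * k := mul_le_mul_of_nonpos_right (by omega) hlt.2.le
      omega
    refine ⟨HahnSeries.ofSuppBddBelow _ hbdd, ?_⟩
    ext n
    by_cases hn : (c : ℤ) ∣ n
    · obtain ⟨k, rfl⟩ := hn
      rw [qExpand_coeff_mul, HahnSeries.coeff_ofSuppBddBelow]
    · rw [qExpand_coeff_of_not_dvd c _ hn, h n hn]

/-- A finite family of Laurent series whose nonzero members have pairwise distinct orders and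
whose sum vanishes is identically zero. -/
theorem eq_zero_of_sum_eq_zero_of_order_injOn {ι : Type*} [Fintype ι] (t : ι → LaurentSeries K)
    (hinj : ∀ i j, t i ≠ 0 → t j ≠ 0 → (t i).order = (t j).order → i = j)
    (hsum : ∑ i, t i = 0) (i : ι) : t i = 0 := by
  classical
  by_contra hi
  obtain ⟨i0, hi0, hmin⟩ := Finset.exists_min_image (Finset.univ.filter fun i => t i ≠ 0)
    (fun i => (t i).order) ⟨i, by simpa using hi⟩
  have hi0' : t i0 ≠ 0 := by simpa using hi0
  have h1 : (∑ i, t i).coeff (t i0).order = (t i0).coeff (t i0).order := by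
    rw [HahnSeries.coeff_sum]
    refine Finset.sum_eq_single i0 (fun j _ hj => ?_) (fun h => absurd (Finset.mem_univ _) h)
    by_cases hj0 : t j = 0
    · rw [hj0]; rfl
    · have h2 := hmin j (by simpa using hj0)
      have h3 : (t i0).order ≠ (t j).order := fun h => hj (hinj i0 j hi0' hj0 h).symm
      exact HahnSeries.coeff_eq_zero_of_lt_order (lt_of_le_of_ne h2 h3)
  rw [hsum] at h1
  exact hi0' (HahnSeries.coeff_order_eq_zero.mp h1.symm)

/-- If `u` has order `-1`, then `1, u, …, u^(c-1)` are linearly independent over the series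
in `q^c`. -/
theorem eq_zero_of_sum_qExpand_mul_pow (c : ℕ) [NeZero c] (u : LaurentSeries K)
    (hu : u.order = -1) (y : Fin c → LaurentSeries K)
    (hsum : ∑ i : Fin c, qExpand K c (y i) * u ^ (i : ℕ) = 0) (i : Fin c) : y i = 0 := by
  have hu0 : u ≠ 0 := by
    rintro rfl
    simp at hu
  have hord : ∀ i : Fin c, y i ≠ 0 →
      (qExpand K c (y i) * u ^ (i : ℕ)).order = (c : ℤ) * (y i).order - (i : ℕ) := by
    intro i hi
    have h1 : qExpand K c (y i) ≠ 0 := fun h =>
      hi (qExpand_injective c (h.trans (map_zero _).symm))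
    rw [HahnSeries.order_mul h1 (pow_ne_zero _ hu0), order_qExpand', HahnSeries.order_pow, hu]
    simp
    ring
  have key := eq_zero_of_sum_eq_zero_of_order_injOn
    (fun i : Fin c => qExpand K c (y i) * u ^ (i : ℕ)) ?_ hsum i
  · rcases mul_eq_zero.mp key with h | h
    · exact qExpand_injective c (h.trans (map_zero _).symm)
    · exact absurd h (pow_ne_zero _ hu0)
  · intro i j hi hj hij
    have hi' : y i ≠ 0 := by
      rintro h
      exact hi (by simp [h])
    have hj' : y j ≠ 0 := by
      rintro h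
      exact hj (by simp [h])
    simp only [hord i hi', hord j hj'] at hij
    have h1 : (c : ℤ) ∣ ((i : ℕ) : ℤ) - ((j : ℕ) : ℤ) :=
      ⟨(y i).order - (y j).order, by linarith⟩
    have hi2 := i.2
    have hj2 := j.2
    have h2 : ((i : ℕ) : ℤ) - ((j : ℕ) : ℤ) = 0 := by
      apply Int.eq_zero_of_abs_lt_dvd h1
      rw [abs_lt]
      constructor <;> omega
    exact Fin.ext (by omega)

/-- An element of an extension field which is a root of unity lies in an algebraically closed
base field. -/
theorem exists_algebraMap_eq_of_pow_eq_one [IsAlgClosed K] {Ω : Type*} [Field Ω] [Algebra K Ω]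
    {u : Ω} {m : ℕ} (hm : m ≠ 0) (hu : u ^ m = 1) : ∃ a : K, algebraMap K Ω a = u := by
  have hint : IsIntegral K u := by
    refine ⟨Polynomial.X ^ m - 1, Polynomial.monic_X_pow_sub_C 1 hm, ?_⟩
    simp [hu]
  have hdeg := IsAlgClosed.degree_eq_one_of_irreducible K (minpoly.irreducible hint)
  exact minpoly.mem_range_of_degree_eq_one K u hdeg

/-- An `m`-th root of `f(q^c)` with `m ∣ ord f` is a series in `q^c`. -/
theorem mem_range_qExpand_of_pow_eq [IsAlgClosed K] (c : ℕ) [NeZero c] {ζ : Kˣ}
    (hζ : IsPrimitiveRoot ζ c) {m : ℕ} (hm : m ≠ 0) (f h : LaurentSeries K)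
    (hf : (m : ℤ) ∣ f.order) (hh : h ^ m = qExpand K c f) : h ∈ Set.range (qExpand K c) := by
  by_cases h0 : h = 0
  · exact ⟨0, by rw [h0, map_zero]⟩
  -- the order of `h` is divisible by `c`
  have hord : (c : ℤ) ∣ h.order := by
    have h1 := congrArg HahnSeries.order hh
    rw [HahnSeries.order_pow, order_qExpand'] at h1
    obtain ⟨a, ha⟩ := hf
    refine ⟨a, ?_⟩
    have hm' : (m : ℤ) ≠ 0 := by exact_mod_cast hm
    apply mul_left_cancel₀ hm'
    rw [ha] at h1
    simp only [nsmul_eq_mul] at h1
    rw [h1]; ring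
  -- `rot ζ` fixes `f(q^c)`
  have hfix : rot ζ (qExpand K c f) = qExpand K c f := by
    ext n
    rw [rot_coeff]
    by_cases hn : (c : ℤ) ∣ n
    · rw [(hζ.zpow_eq_one_iff_dvd n).mpr hn]; simp
    · rw [qExpand_coeff_of_not_dvd c f hn, mul_zero]
  have hpow : (rot ζ h / h) ^ m = 1 := by
    rw [div_pow, ← rot_pow, hh, hfix, ← hh, div_self (pow_ne_zero _ h0)]
  obtain ⟨a, ha⟩ := exists_algebraMap_eq_of_pow_eq_one (K := K) hm hpow
  have hrot : rot ζ h = algebraMap K (LaurentSeries K) a * h := by
    rw [ha, div_mul_cancel₀ _ h0]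
  have hcoef := congrArg (fun g => HahnSeries.coeff g h.order) hrot
  simp only [rot_coeff] at hcoef
  rw [(hζ.zpow_eq_one_iff_dvd _).mpr hord, algebraMap_laurentSeries_eq_single,
    HahnSeries.coeff_single_mul, sub_zero] at hcoef
  have hlead : h.coeff h.order ≠ 0 := fun hz => h0 (HahnSeries.coeff_order_eq_zero.mp hz)
  have ha1 : a = 1 := by
    have : (a - 1) * h.coeff h.order = 0 := by
      rw [sub_mul, ← hcoef]; simp
    rcases mul_eq_zero.mp this with h' | h'
    · exact sub_eq_zero.mp h'
    · exact absurd h' hlead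
  rw [ha1, map_one, one_mul] at hrot
  rw [mem_range_qExpand_iff]
  intro n hn
  exact coeff_eq_zero_of_rot_eq hζ hrot hn

end

end Fermat.Agent.RED.Desc
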