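import Fermat.Agent.RED.Desc.AtkinLehner
import Fermat.Agent.RED.Desc.Series
import Fermat.Agent.S24.CP
import Fermat.Agent.S20.CombIndex
import Fermat.Prelude.Def_ModularCurve_HeckeOperator
import Fermat.Prelude.Def_ModularCurve_X0ModL

/-!
# RED/Desc: the degeneracy map `B : f(q) ↦ f(q^c)` from level `N` to level `N c`

Main result `mem_bar_of_qExpand_mem`: if `[Γ₀(N) : Γ₀(N c)] < 2 c` then a Laurent series `g` with
`g(q^c)` in the function field of level `N c` lies in the function field of level `N`.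
-/

set_option autoImplicit false

open ModularCurve IntermediateField
open Fermat.Agent.S24

namespace Fermat.Agent.RED.Desc

noncomputable section

variable (N c : ℕ) [NeZero N] [NeZero c]

theorem alpha_jBar (d : ℕ) [NeZero d] (hd : d ∣ N) :
    heckeAlphaBar Kb N c (jBar N d hd) = jBar (N * c) d (hd.mul_right c) := by
  apply Subtype.ext
  rw [coe_heckeAlphaBar]
  rfl

theorem beta_jBar (d : ℕ) [NeZero d] (hd : d ∣ N) :
    heckeBetaBar Kb N c (jBar N d hd) =
      jBar (N * c) (c * d) (by rw [mul_comm N c]; exact mul_dvd_mul_left c hd) := by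
  apply Subtype.ext
  rw [coe_heckeBetaBar, coe_jBar, coe_jBar, jqNModC, jqNModC, qExpand_qExpand]

theorem alpha_jF : heckeAlphaBar Kb N c (jF N) = jF (N * c) := alpha_jBar N c 1 (one_dvd N)

/-- `B = w ∘ incl ∘ w`. -/
theorem beta_eq_w_alpha_w (x : FN N) :
    heckeBetaBar Kb N c x = wAL (N * c) (heckeAlphaBar Kb N c (wAL N x)) := by
  have key : (heckeBetaBar Kb N c : FN N →+* FN (N * c)) =
      ((wAL (N * c) : FN (N * c) →+* FN (N * c)).comp
        (heckeAlphaBar Kb N c : FN N →+* FN (N * c))).comp (wAL N : FN N →+* FN N) := by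
    apply ringHom_ext_bar
    · intro a
      simp
    · intro d _ hd
      obtain ⟨e, he⟩ := hd
      have : NeZero e := ⟨by rintro rfl; exact NeZero.ne N (by simpa using he)⟩
      show heckeBetaBar Kb N c (jBar N d _) =
        wAL (N * c) (heckeAlphaBar Kb N c (wAL N (jBar N d _)))
      rw [beta_jBar, wAL_jBar he.symm, alpha_jBar,
        wAL_jBar (show e * (c * d) = N * c by rw [he]; ring)]
  exact congrArg (fun φ : FN N →+* FN (N * c) => φ x) key

theorem finrank_adjoin_jF (M : ℕ) [NeZero M] :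
    Module.finrank Kb⟮jF M⟯ (FN M) = Nat.card (XN M) :=
  (degree_of_charpolyCoeff M (charpolyCoeff M)).2

/-- `[F_N : K(j)] * [F_{Nc} : F_N] = [F_{Nc} : K(j)]`. -/
theorem card_mul_finrank_alpha :
    Nat.card (XN N) * Module.finrank (heckeAlphaBar Kb N c).fieldRange (FN (N * c)) =
      Nat.card (XN (N * c)) := by
  have h1 : (Kb⟮jF N⟯).map (heckeAlphaBar Kb N c) = Kb⟮jF (N * c)⟯ := by
    rw [IntermediateField.adjoin_map, Set.image_singleton, alpha_jF]
  have h2 : (⊤ : IntermediateField Kb (FN N)).map (heckeAlphaBar Kb N c) =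
      (heckeAlphaBar Kb N c).fieldRange := (AlgHom.fieldRange_eq_map _).symm
  have h3 := IntermediateField.relfinrank_map_map (Kb⟮jF N⟯) ⊤ (heckeAlphaBar Kb N c)
  rw [h1, h2, IntermediateField.relfinrank_top_right, finrank_adjoin_jF] at h3
  have hle : Kb⟮jF (N * c)⟯ ≤ (heckeAlphaBar Kb N c).fieldRange := by
    rw [← h1, ← h2]
    exact IntermediateField.map_mono _ le_top
  have h4 := IntermediateField.relfinrank_mul_finrank_top hle
  rw [h3, finrank_adjoin_jF] at h4
  exact h4

theorem fieldRange_beta :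
    (heckeBetaBar Kb N c).fieldRange =
      (heckeAlphaBar Kb N c).fieldRange.map (wAL (N * c) : FN (N * c) →ₐ[Kb] FN (N * c)) := by
  ext y
  constructor
  · rintro ⟨x, rfl⟩
    exact ⟨heckeAlphaBar Kb N c (wAL N x), ⟨wAL N x, rfl⟩, (beta_eq_w_alpha_w N c x).symm⟩
  · rintro ⟨_, ⟨x, rfl⟩, rfl⟩
    refine ⟨wAL N x, ?_⟩
    show heckeBetaBar Kb N c (wAL N x) = wAL (N * c) (heckeAlphaBar Kb N c x)
    rw [beta_eq_w_alpha_w, wAL_wAL]

theorem finrank_beta_eq_finrank_alpha :
    Module.finrank (heckeBetaBar Kb N c).fieldRange (FN (N * c)) =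
      Module.finrank (heckeAlphaBar Kb N c).fieldRange (FN (N * c)) := by
  have h := IntermediateField.relfinrank_map_map (heckeAlphaBar Kb N c).fieldRange ⊤
    (wAL (N * c) : FN (N * c) →ₐ[Kb] FN (N * c))
  have htop : (⊤ : IntermediateField Kb (FN (N * c))).map
      (wAL (N * c) : FN (N * c) →ₐ[Kb] FN (N * c)) = ⊤ := by
    rw [← AlgHom.fieldRange_eq_map, AlgHom.fieldRange_eq_top]
    exact (wAL (N * c)).surjective
  rw [htop, ← fieldRange_beta, IntermediateField.relfinrank_top_right,
    IntermediateField.relfinrank_top_right] at h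
  exact h

/-- `[F_N : K(j)] * [F_{Nc} : B F_N] = [F_{Nc} : K(j)]`. -/
theorem card_mul_finrank_beta :
    Nat.card (XN N) * Module.finrank (heckeBetaBar Kb N c).fieldRange (FN (N * c)) =
      Nat.card (XN (N * c)) := by
  rw [finrank_beta_eq_finrank_alpha, card_mul_finrank_alpha]

/-- The elements of the function field of level `N c` which are series in `q^c`. -/
def seriesInQc : IntermediateField Kb (FN (N * c)) :=
  (qExpandAlgHomC Kb c).fieldRange.comap (modularFunctionFieldBar (N * c)).val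

theorem mem_seriesInQc (x : FN (N * c)) :
    x ∈ seriesInQc N c ↔ ∃ g : LaurentSeries Kb, qExpand Kb c g = (x : LaurentSeries Kb) :=
  Iff.rfl

theorem fieldRange_beta_le : (heckeBetaBar Kb N c).fieldRange ≤ seriesInQc N c := by
  rintro _ ⟨x, rfl⟩
  exact ⟨(x : LaurentSeries Kb), rfl⟩

theorem order_jqModC' (K : Type*) [Field K] : (jqModC K).order = -1 := by
  have h1 : (jqModC K).coeff (-1) ≠ 0 := by
    rw [coeff_jqModC_neg_one]; exact one_ne_zero
  apply le_antisymm (HahnSeries.order_le_of_coeff_ne_zero h1)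
  have hne : jqModC K ≠ 0 := HahnSeries.ne_zero_of_coeff_ne_zero h1
  by_contra hlt
  rw [not_le] at hlt
  exact hne (HahnSeries.coeff_order_eq_zero.mp (coeff_jqModC_of_lt K hlt))

theorem coe_jF (M : ℕ) : ((jF M : FN M) : LaurentSeries Kb) = jqModC Kb := by
  rw [jF, coe_jBar, jqNModC, qExpand_one_apply]

theorem linearIndependent_pow_jF :
    LinearIndependent (seriesInQc N c) (fun i : Fin c => (jF (N * c)) ^ (i : ℕ)) := by
  rw [Fintype.linearIndependent_iff]
  intro g hg i
  choose y hy using fun i => (mem_seriesInQc N c (g i : FN (N * c))).mp (g i).2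
  have h1 : ∑ i : Fin c, qExpand Kb c (y i) * (jqModC Kb) ^ (i : ℕ) = 0 := by
    have h2 := congrArg (fun x : FN (N * c) => (x : LaurentSeries Kb)) hg
    simp only [IntermediateField.coe_sum, ZeroMemClass.coe_zero] at h2
    rw [← h2]
    refine Finset.sum_congr rfl fun i _ => ?_
    rw [hy i, ← coe_jF (N * c)]
    rfl
  have h3 := eq_zero_of_sum_qExpand_mul_pow c (jqModC Kb) (order_jqModC' Kb) y h1 i
  apply Subtype.ext
  apply Subtype.ext
  rw [← hy i, h3, map_zero]
  rfl

/-- **Key lemma of the descent.** If `[Γ₀(N) : Γ₀(N c)] < 2 c`, the elements of the function field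
of level `N c` which are series in `q^c` are the `f(q^c)`, `f` in the function field of level `N`. -/
theorem seriesInQc_le (hlt : Nat.card (XN (N * c)) < 2 * c * Nat.card (XN N)) :
    seriesInQc N c ≤ (heckeBetaBar Kb N c).fieldRange := by
  have h1 := card_mul_finrank_beta N c
  have h2 := IntermediateField.relfinrank_mul_finrank_top (fieldRange_beta_le N c)
  have hpos : 0 < Nat.card (XN (N * c)) := Nat.card_pos
  have hpos' : 0 < Nat.card (XN N) := Nat.card_pos
  set a := Module.finrank (heckeBetaBar Kb N c).fieldRange (FN (N * c)) with ha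
  set b := Module.finrank (seriesInQc N c) (FN (N * c)) with hb
  set r := IntermediateField.relfinrank (heckeBetaBar Kb N c).fieldRange (seriesInQc N c) with hr
  have ha0 : a ≠ 0 := by
    rintro h
    rw [h, mul_zero] at h1
    omega
  have hb0 : 0 < b := by
    rcases Nat.eq_zero_or_pos b with h | h
    · rw [h, mul_zero] at h2
      exact absurd h2.symm ha0
    · exact h
  have hfin : Module.Finite (seriesInQc N c) (FN (N * c)) := Module.finite_of_finrank_pos hb0
  have hcb : c ≤ b := by
    have := (linearIndependent_pow_jF N c).fintype_card_le_finrank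
    simpa using this
  have hr1 : r = 1 := by
    have hr0 : r ≠ 0 := by
      rintro h
      rw [h, zero_mul] at h2
      exact ha0 h2.symm
    by_contra hne
    have hr2 : 2 ≤ r := by omega
    have h3 : 2 * c ≤ a := by
      rw [← h2]
      exact Nat.mul_le_mul hr2 hcb
    have h4 : Nat.card (XN N) * (2 * c) ≤ Nat.card (XN (N * c)) := by
      rw [← h1]
      exact Nat.mul_le_mul_left _ h3
    have h5 : Nat.card (XN N) * (2 * c) = 2 * c * Nat.card (XN N) := by ring
    omega
  exact IntermediateField.relfinrank_eq_one_iff.mp hr1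

/-- If `[Γ₀(N) : Γ₀(N c)] < 2 c` then a Laurent series `g` with `g(q^c)` in the function field of
level `N c` lies in the function field of level `N`. -/
theorem mem_bar_of_qExpand_mem (hlt : Nat.card (XN (N * c)) < 2 * c * Nat.card (XN N))
    (g : LaurentSeries Kb) (hg : qExpand Kb c g ∈ modularFunctionFieldBar (N * c)) :
    g ∈ modularFunctionFieldBar N := by
  obtain ⟨x, hx⟩ := seriesInQc_le N c hlt
    (show (⟨qExpand Kb c g, hg⟩ : FN (N * c)) ∈ seriesInQc N c from ⟨g, rfl⟩)
  have h1 : qExpand Kb c (x : LaurentSeries Kb) = qExpand Kb c g := congrArg Subtype.val hx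
  rw [← qExpand_injective c h1]
  exact x.2

/-- Extraction of roots descends along `B`. -/
theorem exists_root_of_beta_eq_pow (hlt : Nat.card (XN (N * c)) < 2 * c * Nat.card (XN N))
    {m : ℕ} (hm : m ≠ 0) (f : FN N) (hf : (m : ℤ) ∣ (f : LaurentSeries Kb).order)
    (h : FN (N * c)) (hh : h ^ m = heckeBetaBar Kb N c f) :
    ∃ g : FN N, g ^ m = f ∧ heckeBetaBar Kb N c g = h := by
  obtain ⟨ζ, hζ⟩ := HasEnoughRootsOfUnity.exists_primitiveRoot Kb c
  have hζ0 : ζ ≠ 0 := hζ.ne_zero (NeZero.ne c)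
  have hζ' : IsPrimitiveRoot (Units.mk0 ζ hζ0) c := by
    rw [← IsPrimitiveRoot.coe_units_iff]
    exact hζ
  have hh' : (h : LaurentSeries Kb) ^ m = qExpand Kb c (f : LaurentSeries Kb) :=
    congrArg Subtype.val hh
  obtain ⟨g, hg⟩ := mem_range_qExpand_of_pow_eq c hζ' hm _ _ hf hh'
  have hgmem : g ∈ modularFunctionFieldBar N :=
    mem_bar_of_qExpand_mem N c hlt g (by rw [hg]; exact h.2)
  refine ⟨⟨g, hgmem⟩, ?_, Subtype.ext hg⟩
  apply Subtype.ext
  apply qExpand_injective c
  show qExpand Kb c (g ^ m) = _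
  rw [map_pow, hg, hh']

/-! ### The index inequality -/

theorem card_XN_eq (M : ℕ) [NeZero M] : Nat.card (XN M) = dedekindPsi M :=
  Fermat.Agent.S20.card_quotient_Gamma0 M

theorem card_lt_one : Nat.card (XN (N * 1)) < 2 * 1 * Nat.card (XN N) := by
  have hpos' : 0 < Nat.card (XN N) := Nat.card_pos
  simp only [mul_one]
  omega

theorem card_lt_prime_of_dvd {p : ℕ} (hp : p.Prime) (h : p ∣ N) :
    haveI : NeZero p := ⟨hp.ne_zero⟩
    Nat.card (XN (N * p)) < 2 * p * Nat.card (XN N) := by
  haveI : NeZero p := ⟨hp.ne_zero⟩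
  have hpos' : 0 < Nat.card (XN N) := Nat.card_pos
  rw [card_XN_eq, card_XN_eq] at *
  rw [Fermat.Agent.S20.dedekindPsi_mul_prime_of_dvd (NeZero.ne N) hp h]
  have := Nat.mul_pos hp.pos hpos'
  nlinarith

theorem card_lt_prime_sq_of_not_dvd {p : ℕ} (hp : p.Prime) (h : ¬ p ∣ N) :
    haveI : NeZero p := ⟨hp.ne_zero⟩
    Nat.card (XN (N * (p * p))) < 2 * (p * p) * Nat.card (XN N) := by
  haveI : NeZero p := ⟨hp.ne_zero⟩
  have hpos' : 0 < Nat.card (XN N) := Nat.card_pos
  rw [card_XN_eq, card_XN_eq] at *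
  rw [← mul_assoc, Fermat.Agent.S20.dedekindPsi_mul_prime_of_dvd
      (Nat.mul_ne_zero (NeZero.ne N) hp.ne_zero) hp (Dvd.intro_left N rfl),
    Fermat.Agent.S20.dedekindPsi_mul_prime_of_not_dvd (NeZero.ne N) hp h]
  have h2 := hp.two_le
  have : p * ((p + 1) * dedekindPsi N) = (p * p + p) * dedekindPsi N := by ring
  rw [this]
  apply Nat.mul_lt_mul_of_pos_right _ hpos'
  nlinarith

end

end Fermat.Agent.RED.Desc
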