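import Fermat.Agent.RED.Desc.BMap
import Fermat.Agent.S24.FF.Places
import Fermat.Agent.RED.FF.LSpace

/-!
# RED/Desc: the place at infinity of the function field of `X₀(N)` (the `q`-adic order)
-/

set_option autoImplicit false

open ModularCurve AlgebraicCurve
open Fermat.Agent.S24

namespace Fermat.Agent.RED.Desc

noncomputable section

theorem isFiniteParam_jF (N : ℕ) [NeZero N] : IsFiniteParam Kb (jF N) :=
  isFiniteParam_jF_of N (charpolyCoeff N)

theorem isSepParam_jF (N : ℕ) [NeZero N] : IsSepParam Kb (jF N) :=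
  IsSepParam.of_charZero (isFiniteParam_jF N)

/-- The valuation subring of the function field given by the `q`-adic order. -/
def inftyRing (N : ℕ) : ValuationSubring (FN N) :=
  (Valued.v.valuationSubring : ValuationSubring (LaurentSeries Kb)).comap
    (algebraMap (FN N) (LaurentSeries Kb))

theorem mem_inftyRing {N : ℕ} {f : FN N} (hf : f ≠ 0) :
    f ∈ inftyRing N ↔ 0 ≤ (f : LaurentSeries Kb).order := by
  have hf' : (f : LaurentSeries Kb) ≠ 0 := fun h => hf (Subtype.ext h)
  show (Valued.v (f : LaurentSeries Kb) : WithZero (Multiplicative ℤ)) ≤ 1 ↔ _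
  rw [valuation_eq_exp_neg_order hf', ← WithZero.exp_zero, WithZero.exp_le_exp]
  omega

theorem order_coe_jF (N : ℕ) : ((jF N : FN N) : LaurentSeries Kb).order = -1 := by
  rw [coe_jF, order_jqModC']

theorem jF_ne_zero (N : ℕ) : jF N ≠ 0 := by
  intro h
  have := order_coe_jF N
  rw [h] at this
  simp at this

theorem order_coe_inv {N : ℕ} (f : FN N) :
    ((f⁻¹ : FN N) : LaurentSeries Kb).order = -(f : LaurentSeries Kb).order := by
  by_cases hf : f = 0
  · subst hf; simp
  have hf' : (f : LaurentSeries Kb) ≠ 0 := fun h => hf (Subtype.ext h)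
  have h1 : (f : LaurentSeries Kb) * ((f⁻¹ : FN N) : LaurentSeries Kb) = 1 := by
    have : f * f⁻¹ = 1 := mul_inv_cancel₀ hf
    exact congrArg Subtype.val this
  have h2 : ((f⁻¹ : FN N) : LaurentSeries Kb) ≠ 0 := right_ne_zero_of_mul_eq_one h1
  have h3 := congrArg HahnSeries.order h1
  rw [HahnSeries.order_mul hf' h2, HahnSeries.order_one] at h3
  omega

/-- The place at infinity: its order function is the `q`-adic order. -/
theorem exists_place_infty (N : ℕ) [NeZero N] :
    ∃ v : Place Kb (FN N), ∀ f : FN N, f ≠ 0 → v.ord f = (f : LaurentSeries Kb).order := by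
  have hj0 := jF_ne_zero N
  have hK : ∀ a : Kb, algebraMap Kb (FN N) a ∈ inftyRing N := by
    intro a
    by_cases ha : a = 0
    · subst ha; rw [map_zero]; exact zero_mem _
    · have hne : algebraMap Kb (FN N) a ≠ 0 := by rw [Ne, map_eq_zero]; exact ha
      rw [mem_inftyRing hne]
      show 0 ≤ (algebraMap Kb (LaurentSeries Kb) a).order
      rw [algebraMap_laurentSeries_eq_single, HahnSeries.order_single ha]
  have hy : (jF N)⁻¹ ∈ inftyRing N := by
    rw [mem_inftyRing (inv_ne_zero hj0), order_coe_inv, order_coe_jF]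
    norm_num
  have hO : inftyRing N ≠ ⊤ := by
    intro h
    have : jF N ∈ inftyRing N := by rw [h]; exact ValuationSubring.mem_top _
    rw [mem_inftyRing hj0, order_coe_jF] at this
    omega
  obtain ⟨v, hv⟩ := (isFiniteParam_jF N).inv.exists_place_eq (inftyRing N) hK hy hO
  refine ⟨v, Place.ord_eq_of_hom v (fun f => (f : LaurentSeries Kb).order) ?_ ?_ ?_⟩
  · intro f g hf hg
    exact HahnSeries.order_mul (fun h => hf (Subtype.ext h)) (fun h => hg (Subtype.ext h))
  · intro f hf
    rw [hv, mem_inftyRing hf]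
  · exact ⟨(jF N)⁻¹, inv_ne_zero hj0, by rw [order_coe_inv, order_coe_jF]; rfl⟩

/-- If all the orders of `f` are divisible by `m`, so is its `q`-adic order. -/
theorem dvd_order_of_forall_dvd_ord {N : ℕ} [NeZero N] {m : ℤ} {f : FN N}
    (h : ∀ P : Place Kb (FN N), m ∣ P.ord f) : m ∣ (f : LaurentSeries Kb).order := by
  by_cases hf : f = 0
  · subst hf; simp
  obtain ⟨v, hv⟩ := exists_place_infty N
  rw [← hv f hf]
  exact h v

end

end Fermat.Agent.RED.Desc
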