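import Fermat.Agent.S24.Sigma
import Fermat.Agent.S24.Conj

/-!
# RED/Desc: the Atkin--Lehner involution of the function field of `X₀(N)`

`wAL N : FN N ≃ₐ[Kb] FN N` with `wAL N (j_d) = j_{N/d}`.
-/

set_option autoImplicit false

open UpperHalfPlane hiding I
open Function ModularCurve
open scoped Manifold MatrixGroups
open Fermat.Agent.S24

namespace Fermat.Agent.RED.Desc

noncomputable section

/-! ### Precomposition with an element of `GL(2,ℝ)⁺` on `Mer` -/

theorem algebraMap_comp_compGL_injective (g : GL (Fin 2) ℝ) (hg : 0 < g.det.val) :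
    Injective ((algebraMap Hol Mer).comp (compGL g hg).toRingHom) :=
  (IsFractionRing.injective Hol Mer).comp (compGL_injective g hg)

/-- Precomposition with an element of `GL(2,ℝ)⁺`, on fractions of holomorphic functions. -/
def compGLMer (g : GL (Fin 2) ℝ) (hg : 0 < g.det.val) : Mer →+* Mer :=
  IsFractionRing.lift (algebraMap_comp_compGL_injective g hg)

theorem compGLMer_algebraMap (g : GL (Fin 2) ℝ) (hg : 0 < g.det.val) (f : Hol) :
    compGLMer g hg (algebraMap Hol Mer f) = algebraMap Hol Mer (compGL g hg f) :=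
  IsFractionRing.lift_algebraMap _ _

theorem compGLMer_const (g : GL (Fin 2) ℝ) (hg : 0 < g.det.val) (c : ℂ) :
    compGLMer g hg (algebraMap ℂ Mer c) = algebraMap ℂ Mer c := by
  rw [IsScalarTower.algebraMap_apply ℂ Hol Mer, compGLMer_algebraMap, AlgHom.commutes]

/-! ### The Fricke matrix -/

/-- The matrix `[[0,-1],[N,0]]`. -/
def wMat (N : ℕ) [NeZero N] : GL (Fin 2) ℝ :=
  Matrix.GeneralLinearGroup.mkOfDetNeZero !![0, -1; (N : ℝ), 0] (by
    rw [Matrix.det_fin_two_of]
    have : (N : ℝ) ≠ 0 := by exact_mod_cast NeZero.ne N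
    simpa using this)

theorem det_wMat (N : ℕ) [NeZero N] : (wMat N).det.val = (N : ℝ) := by
  rw [wMat, Matrix.GeneralLinearGroup.val_det_apply]
  show Matrix.det !![0, -1; (N : ℝ), 0] = _
  rw [Matrix.det_fin_two_of]
  simp

theorem det_wMat_pos (N : ℕ) [NeZero N] : 0 < (wMat N).det.val := by
  rw [det_wMat]
  exact_mod_cast Nat.pos_of_ne_zero (NeZero.ne N)

theorem coe_wMat_smul (N : ℕ) [NeZero N] (τ : ℍ) :
    ((wMat N • τ : ℍ) : ℂ) = -1 / ((N : ℂ) * τ) := by
  rw [UpperHalfPlane.coe_smul_of_det_pos (det_wMat_pos N)]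
  simp [UpperHalfPlane.num, UpperHalfPlane.denom, wMat]

theorem scal_wMat_smul {N d e : ℕ} [NeZero N] [NeZero d] [NeZero e] (h : d * e = N) (τ : ℍ) :
    scal d (wMat N • τ) = ModularGroup.S • scal e τ := by
  apply UpperHalfPlane.ext
  rw [coe_scal, coe_wMat_smul, UpperHalfPlane.modular_S_smul]
  show _ = (-((scal e τ : ℍ) : ℂ))⁻¹
  rw [coe_scal, ← h]
  have hd : (d : ℂ) ≠ 0 := by exact_mod_cast NeZero.ne d
  have he : (e : ℂ) ≠ 0 := by exact_mod_cast NeZero.ne e
  have hτ : (τ : ℂ) ≠ 0 := UpperHalfPlane.ne_zero τ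
  push_cast
  field_simp

theorem jd_wMat_smul {N d e : ℕ} [NeZero N] [NeZero d] [NeZero e] (h : d * e = N) (τ : ℍ) :
    jd d (wMat N • τ) = jd e τ := by
  rw [jd, jd, scal_wMat_smul h, jfun_isSLInvariant]

theorem compGL_wMat_jdHol {N d e : ℕ} [NeZero N] [NeZero d] [NeZero e] (h : d * e = N) :
    compGL (wMat N) (det_wMat_pos N) (jdHol d) = jdHol e := by
  apply Subtype.ext
  funext τ
  exact jd_wMat_smul h τ

/-! ### Induction principle for the function field -/

/-- A subfield of the function field containing the constants and the generators is everything. -/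
theorem mem_subfield_of_gen {N : ℕ} (S0 : Subfield (FN N))
    (hK : ∀ a : Kb, algebraMap Kb (FN N) a ∈ S0)
    (hj : ∀ (d : ℕ) [NeZero d] (hd : d ∣ N), jBar N d hd ∈ S0) (x : FN N) : x ∈ S0 := by
  let S : Subfield (LaurentSeries Kb) := S0.map (modularFunctionFieldBar N).val.toRingHom
  have key : ∀ x ∈ modularFunctionFieldBar N, x ∈ S := by
    apply bar_le
    · intro a
      exact ⟨algebraMap Kb (FN N) a, hK a, rfl⟩
    · intro d _ hd
      exact ⟨jBar N d hd, hj d hd, coe_jBar N d hd⟩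
  obtain ⟨y, hy, hyx⟩ := key x x.2
  have : y = x := Subtype.ext hyx
  rw [← this]; exact hy

/-! ### The involution -/

theorem compGLMer_ThetaMer_mem (N : ℕ) [NeZero N] (x : FN N) :
    ((compGLMer (wMat N) (det_wMat_pos N)).comp (ThetaMer N)) x ∈ (ThetaMer N).fieldRange := by
  refine mem_subfield_of_gen
    ((ThetaMer N).fieldRange.comap ((compGLMer (wMat N) (det_wMat_pos N)).comp (ThetaMer N)))
    ?_ ?_ x
  · intro a
    refine ⟨algebraMap Kb (FN N) a, ?_⟩
    rw [RingHom.comp_apply, ThetaMer_algebraMap, compGLMer_const]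
  · intro d _ hd
    obtain ⟨e, he⟩ := hd
    haveI : NeZero e := ⟨by rintro rfl; exact NeZero.ne N (by simpa using he)⟩
    refine ⟨jBar N e ⟨d, by rw [he, mul_comm]⟩, ?_⟩
    rw [RingHom.comp_apply, ThetaMer_jBar, ThetaMer_jBar, compGLMer_algebraMap,
      compGL_wMat_jdHol he.symm]

/-- The Atkin--Lehner (Fricke) map as a ring homomorphism. -/
def wRingHom (N : ℕ) [NeZero N] : FN N →+* FN N :=
  liftThrough (ThetaMer N) ((compGLMer (wMat N) (det_wMat_pos N)).comp (ThetaMer N))
    (compGLMer_ThetaMer_mem N)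

theorem ThetaMer_wRingHom (N : ℕ) [NeZero N] (x : FN N) :
    ThetaMer N (wRingHom N x) = compGLMer (wMat N) (det_wMat_pos N) (ThetaMer N x) :=
  liftThrough_spec _ _ _ x

theorem wRingHom_algebraMap (N : ℕ) [NeZero N] (a : Kb) :
    wRingHom N (algebraMap Kb (FN N) a) = algebraMap Kb (FN N) a := by
  apply (ThetaMer N).injective
  rw [ThetaMer_wRingHom, ThetaMer_algebraMap, compGLMer_const]

theorem wRingHom_jBar {N d e : ℕ} [NeZero N] [NeZero d] [NeZero e] (h : d * e = N) :
    wRingHom N (jBar N d ⟨e, h.symm⟩) = jBar N e ⟨d, by rw [← h, mul_comm]⟩ := by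
  apply (ThetaMer N).injective
  rw [ThetaMer_wRingHom, ThetaMer_jBar, ThetaMer_jBar, compGLMer_algebraMap, compGL_wMat_jdHol h]

theorem wRingHom_wRingHom (N : ℕ) [NeZero N] : (wRingHom N).comp (wRingHom N) = RingHom.id _ := by
  apply ringHom_ext_bar
  · intro a
    rw [RingHom.comp_apply, wRingHom_algebraMap, wRingHom_algebraMap, RingHom.id_apply]
  · intro d _ hd
    obtain ⟨e, he⟩ := hd
    haveI : NeZero e := ⟨by rintro rfl; exact NeZero.ne N (by simpa using he)⟩
    rw [RingHom.comp_apply, RingHom.id_apply, wRingHom_jBar he.symm,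
      wRingHom_jBar (show e * d = N by rw [he, mul_comm])]

/-- The Atkin--Lehner (Fricke) map as an algebra homomorphism. -/
def wAlgHom (N : ℕ) [NeZero N] : FN N →ₐ[Kb] FN N :=
  { wRingHom N with commutes' := wRingHom_algebraMap N }

theorem wAlgHom_apply (N : ℕ) [NeZero N] (x : FN N) : wAlgHom N x = wRingHom N x := rfl

theorem wAlgHom_wAlgHom (N : ℕ) [NeZero N] (x : FN N) : wAlgHom N (wAlgHom N x) = x :=
  congrArg (fun φ : FN N →+* FN N => φ x) (wRingHom_wRingHom N)

/-- The Atkin--Lehner (Fricke) involution of the function field of `X₀(N)`. -/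
def wAL (N : ℕ) [NeZero N] : FN N ≃ₐ[Kb] FN N :=
  AlgEquiv.ofAlgHom (wAlgHom N) (wAlgHom N)
    (AlgHom.ext (wAlgHom_wAlgHom N)) (AlgHom.ext (wAlgHom_wAlgHom N))

theorem wAL_apply (N : ℕ) [NeZero N] (x : FN N) : wAL N x = wRingHom N x := rfl

theorem wAL_wAL (N : ℕ) [NeZero N] (x : FN N) : wAL N (wAL N x) = x := wAlgHom_wAlgHom N x

theorem wAL_jBar {N d e : ℕ} [NeZero N] [NeZero d] [NeZero e] (h : d * e = N) :
    wAL N (jBar N d ⟨e, h.symm⟩) = jBar N e ⟨d, by rw [← h, mul_comm]⟩ :=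
  wRingHom_jBar h

end

end Fermat.Agent.RED.Desc
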