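import Fermat.Agent.RED.Desc.Infty
import Fermat.Agent.RED.Gauss.Datum
import Fermat.Agent.RED.S18.KProp
import Fermat.Agent.GAL.FFExt

/-!
# RED/Desc: descent of the Kummer property `(K)` from level `N c` to level `N`
-/

set_option autoImplicit false

open ModularCurve AlgebraicCurve
open Fermat.Agent.S24 Fermat.Agent.RED.Gauss

namespace Fermat.Agent.RED.Desc

noncomputable section

/-! ### The Gauss ring and the substitution `q ↦ q^c` -/

section Subst

variable {L : Type*} [Field L] {A : ValuationSubring L} {k : Type*} [Field k] (π : A →+* k)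
variable (c : ℕ) [NeZero c]

theorem iota_qExpand (a : LaurentSeries A) : iota A (qExpand A c a) = qExpand L c (iota A a) :=
  coeffMap_qExpand _ c a

theorem pi_qExpand (a : LaurentSeries A) : pi π (qExpand A c a) = qExpand k c (pi π a) :=
  coeffMap_qExpand _ c a

theorem qExpand_mem_bigO {y : LaurentSeries L} (hy : y ∈ bigO π) : qExpand L c y ∈ bigO π := by
  obtain ⟨a, b, hb, h⟩ := hy
  refine ⟨qExpand A c a, qExpand A c b, ?_, ?_⟩
  · rw [pi_qExpand]
    exact fun h0 => hb (qExpand_injective c (h0.trans (map_zero _).symm))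
  · rw [iota_qExpand, iota_qExpand, ← map_mul, h]

theorem bigRed_qExpand {y : LaurentSeries L} (hy : y ∈ bigO π) :
    bigRed π ⟨qExpand L c y, qExpand_mem_bigO π c hy⟩ = qExpand k c (bigRed π ⟨y, hy⟩) := by
  obtain ⟨a, b, hb, h⟩ := id hy
  have hb' : pi π (qExpand A c b) ≠ 0 := by
    rw [pi_qExpand]
    exact fun h0 => hb (qExpand_injective c (h0.trans (map_zero _).symm))
  have h' : qExpand L c y * iota A (qExpand A c b) = iota A (qExpand A c a) := by
    rw [iota_qExpand, iota_qExpand, ← map_mul, h]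
  have e1 : bigRed π ⟨y, hy⟩ = pi π a / pi π b := bigRed_eq π ⟨y, hy⟩ hb h
  have e2 : bigRed π ⟨qExpand L c y, qExpand_mem_bigO π c hy⟩ =
      pi π (qExpand A c a) / pi π (qExpand A c b) :=
    bigRed_eq π ⟨qExpand L c y, qExpand_mem_bigO π c hy⟩ hb' h'
  rw [e1, e2, pi_qExpand, pi_qExpand, map_div₀]

end Subst

/-! ### Integrality of `B` -/

variable (N c : ℕ) [NeZero N] [NeZero c]

theorem finiteAlong_beta : FiniteAlong Kb (heckeBetaBar Kb N c) :=
  Fermat.Agent.GAL.FFExt.finiteAlong _ (isFiniteParam_jF N) (isFiniteParam_jF (N * c))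

theorem isIntegral_beta : (heckeBetaBar Kb N c).toRingHom.IsIntegral :=
  Fermat.Agent.GAL.FFExt.isIntegralAlong _ (finiteAlong_beta N c)

theorem dvd_ord_beta {m : ℤ} {f : FN N} (h : ∀ P : Place Kb (FN N), m ∣ P.ord f)
    (P' : Place Kb (FN (N * c))) : m ∣ P'.ord (heckeBetaBar Kb N c f) := by
  rw [Place.ord_restrictAlong _ (isIntegral_beta N c)]
  exact Dvd.dvd.mul_left (h _) _

/-! ### Descent of `(K)` -/

variable {N c}

/-- **[DESC]**: the Kummer property descends from level `N c` to level `N` as soon as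
`[Γ₀(N) : Γ₀(N c)] < 2 c`. -/
theorem kProp_desc {A : ValuationSubring Kb} {k : Type*} [Field k] (π : A →+* k)
    {ℓ : ℕ} [Fact ℓ.Prime] [CharP k ℓ] (hπ : Function.Surjective π)
    {n n' : ℕ} {u u' : LaurentSeries ℤ} (hn : 0 < n) (h : IsCoreExt N ℓ n u)
    (hn' : 0 < n') (h' : IsCoreExt (N * c) ℓ n' u')
    (hlt : Nat.card (XN (N * c)) < 2 * c * Nat.card (XN N)) {m : ℕ} (hm : m ≠ 0)
    (HK : KProp (gaussRedData π hπ hn' h') m) : KProp (gaussRedData π hπ hn h) m := by
  intro x γ hγ hx hdiv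
  have hxO : ((x : FN N) : LaurentSeries Kb) ∈ bigO π := x.2
  have hx'O : heckeBetaBar Kb N c (x : FN N) ∈ (gaussRedData π hπ hn' h').O :=
    qExpand_mem_bigO π c hxO
  have hγmem : qExpand k c (γ : LaurentSeries k) ∈ modularFunctionFieldFullC k (N * c) :=
    full_degeneracyC_map_le k N c ⟨γ, γ.2, rfl⟩
  have hγ' : (⟨qExpand k c (γ : LaurentSeries k), hγmem⟩ : modularFunctionFieldFullC k (N * c)) ≠ 0 := by
    intro h0
    apply hγ
    apply Subtype.ext
    exact qExpand_injective c ((congrArg Subtype.val h0).trans (map_zero _).symm)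
  have hred : (gaussRedData π hπ hn' h').red ⟨heckeBetaBar Kb N c (x : FN N), hx'O⟩ =
      (⟨qExpand k c (γ : LaurentSeries k), hγmem⟩ : modularFunctionFieldFullC k (N * c)) ^ m := by
    apply Subtype.ext
    have h1 : (((gaussRedData π hπ hn h).red x : modularFunctionFieldFullC k N) :
        LaurentSeries k) = bigRed π ⟨_, hxO⟩ := rfl
    have h2 : (((gaussRedData π hπ hn' h').red ⟨heckeBetaBar Kb N c (x : FN N), hx'O⟩ :
        modularFunctionFieldFullC k (N * c)) : LaurentSeries k) =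
        bigRed π ⟨qExpand Kb c ((x : FN N) : LaurentSeries Kb), qExpand_mem_bigO π c hxO⟩ := rfl
    rw [h2, bigRed_qExpand π c hxO, ← h1, hx]
    show qExpand k c ((γ : LaurentSeries k) ^ m) = (qExpand k c (γ : LaurentSeries k)) ^ m
    rw [map_pow]
  obtain ⟨g', hg'⟩ := HK ⟨heckeBetaBar Kb N c (x : FN N), hx'O⟩ _ hγ' hred
    (dvd_ord_beta N c hdiv)
  obtain ⟨g, hg, -⟩ := exists_root_of_beta_eq_pow N c hlt hm (x : FN N)
    (dvd_order_of_forall_dvd_ord hdiv) g' hg'
  exact ⟨g, hg⟩

end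

end Fermat.Agent.RED.Desc
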