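import Fermat.Agent.RED.Desc.KDesc

/-!
# RED/Desc: `B^*` is injective on torsion divisor classes
-/

set_option autoImplicit false
set_option maxHeartbeats 400000

open ModularCurve AlgebraicCurve
open Fermat.Agent.S24

namespace Fermat.Agent.RED.Desc

noncomputable section

/-! ### The index inequality for `c = p²` -/

theorem card_lt_prime_sq (N : ℕ) [NeZero N] {p : ℕ} (hp : p.Prime) :
    Nat.card (XN (N * (p * p))) < 2 * (p * p) * Nat.card (XN N) := by
  by_cases h : p ∣ N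
  · have : NeZero p := ⟨hp.ne_zero⟩
    have hpos' : 0 < Nat.card (XN N) := Nat.card_pos
    rw [card_XN_eq, card_XN_eq] at *
    rw [← mul_assoc, Fermat.Agent.S20.dedekindPsi_mul_prime_of_dvd
        (Nat.mul_ne_zero (NeZero.ne N) hp.ne_zero) hp (Dvd.intro_left N rfl),
      Fermat.Agent.S20.dedekindPsi_mul_prime_of_dvd (NeZero.ne N) hp h]
    have h2 := hp.pos
    have : p * (p * dedekindPsi N) = (p * p) * dedekindPsi N := by ring
    rw [this]
    apply Nat.mul_lt_mul_of_pos_right _ hpos'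
    nlinarith
  · exact card_lt_prime_sq_of_not_dvd N hp h

theorem card_lt_four (N : ℕ) [NeZero N] : Nat.card (XN (N * 4)) < 2 * 4 * Nat.card (XN N) := by
  have h := card_lt_prime_sq N Nat.prime_two
  have e : (2 * 2 : ℕ) = 4 := rfl
  rw [e] at h
  exact h

theorem card_lt_nine (N : ℕ) [NeZero N] : Nat.card (XN (N * 9)) < 2 * 9 * Nat.card (XN N) := by
  have h := card_lt_prime_sq N Nat.prime_three
  have e : (3 * 3 : ℕ) = 9 := rfl
  rw [e] at h
  exact h

/-! ### Divisors -/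

variable {N c : ℕ} [NeZero N] [NeZero c]

/-- If `m D` is principal on `X₀(N)` and `B^* D` is principal on `X₀(N c)` then `D` is
principal. -/
theorem isPrincipal_of_pullback_beta (hlt : Nat.card (XN (N * c)) < 2 * c * Nat.card (XN N))
    [HasPrincipalDivisors Kb (FN (N * c))] (hβ : (heckeBetaBar Kb N c).toRingHom.IsIntegral)
    {m : ℕ} (hm : m ≠ 0) (D : Divisor Kb (FN N)) (hmD : (m • D).IsPrincipal)
    (hD : (Divisor.pullbackAlong (heckeBetaBar Kb N c) hβ D).IsPrincipal) : D.IsPrincipal := by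
  obtain ⟨f, hf0, hf⟩ := hmD
  obtain ⟨h, hh0, hh⟩ := hD
  have hm' : (m : ℤ) ≠ 0 := by exact_mod_cast hm
  have hfD : ∀ P : Place Kb (FN N), P.ord f = m * D P := by
    intro P
    rw [← hf P, Finsupp.smul_apply, nsmul_eq_mul]
  have hβf0 : heckeBetaBar Kb N c f ≠ 0 := by
    rw [Ne, map_eq_zero]; exact hf0
  -- `h ^ m / B f` is a constant
  have hw : ∀ P' : Place Kb (FN (N * c)), 0 ≤ P'.ord (h ^ m / heckeBetaBar Kb N c f) := by
    intro P'
    rw [div_eq_mul_inv, P'.ord_mul (pow_ne_zero _ hh0) (inv_ne_zero hβf0), P'.ord_inv,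
      Place.ord_pow, ← hh P', Divisor.pullbackAlong_apply, Place.ord_restrictAlong _ hβ, hfD]
    apply le_of_eq
    ring
  obtain ⟨a, ha⟩ := (isSepParam_jF (N * c)).mem_range_of_forall_ord_nonneg hw
  have ha0 : a ≠ 0 := by
    rintro rfl
    rw [map_zero] at ha
    exact (div_ne_zero (pow_ne_zero _ hh0) hβf0) ha.symm
  obtain ⟨b, hb⟩ := IsAlgClosed.exists_pow_nat_eq a (Nat.pos_of_ne_zero hm)
  have hb0 : algebraMap Kb (FN (N * c)) b ≠ 0 := by
    rw [Ne, map_eq_zero]
    rintro rfl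
    rw [zero_pow hm] at hb
    exact ha0 hb.symm
  have hroot : (h / algebraMap Kb (FN (N * c)) b) ^ m = heckeBetaBar Kb N c f := by
    rw [div_pow, ← map_pow, hb, ha, div_div_cancel₀ (pow_ne_zero _ hh0)]
  have hdvd : ∀ P : Place Kb (FN N), (m : ℤ) ∣ P.ord f := fun P => ⟨D P, hfD P⟩
  obtain ⟨g, hg, -⟩ := exists_root_of_beta_eq_pow N c hlt hm f
    (dvd_order_of_forall_dvd_ord hdvd) _ hroot
  have hg0 : g ≠ 0 := by
    rintro rfl
    rw [zero_pow hm] at hg
    exact hf0 hg.symm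
  refine ⟨g, hg0, fun P => ?_⟩
  apply mul_left_cancel₀ hm'
  rw [← hfD P, ← hg, Place.ord_pow]

end

end Fermat.Agent.RED.Desc
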